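import Fermat.Agent.S20.Defs

/-!
# S20 / Basics / Constr: constructors for modular forms, products with level-one forms.
-/

set_option autoImplicit false

open UpperHalfPlane ModularForm CongruenceSubgroup
open scoped MatrixGroups ModularForm Manifold
open Fermat.Agent.S23

namespace Fermat.Agent.S20.BasicsAux

variable {N : ℕ} [NeZero N]

/-- The function-level slash identity follows from the pointwise transformation law. -/
private theorem slash_eq_of_law (K : ℤ) (F : ℍ → ℂ) (γ : SL(2, ℤ))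
    (h : ∀ z : ℍ, F (γ • z) = denom γ z ^ K * F z) : F ∣[K] γ = F := by
  ext z
  have hd : denom γ z ^ K ≠ 0 := zpow_ne_zero K (denom_ne_zero γ z)
  rw [ModularForm.SL_slash_apply, h z, zpow_neg]
  field_simp

/-- Constructor from the function-level slash identities. -/
private theorem exists_modularForm_of_slash (K : ℤ) (F : ℍ → ℂ) (hol : MDiff F)
    (inv : ∀ γ ∈ CongruenceSubgroup.Gamma0 N, F ∣[K] γ = F)
    (bdd : ∀ γ : SL(2, ℤ), IsBoundedAtImInfty (F ∣[K] γ)) :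
    ∃ g : ModularForm (Gam N) K, (g : ℍ → ℂ) = F := by
  refine ⟨{ toFun := F
            slash_action_eq' := ?_
            holo' := hol
            bdd_at_cusps' := ?_ }, rfl⟩
  · rintro g ⟨γ, hγ, rfl⟩
    exact inv γ hγ
  · intro c hc
    have hc' : IsCusp c 𝒮ℒ := (Subgroup.IsArithmetic.isCusp_iff_isCusp_SL2Z (Gam N)).mp hc
    exact (OnePoint.isBoundedAt_iff_forall_SL2Z hc').mpr fun γ _ => bdd γ

/-- Constructor: a holomorphic function with the `Γ₀(N)`-transformation law of weight `K`, all of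
whose `SL(2,ℤ)`-translates are bounded at `i∞`, is a modular form. -/
theorem exists_modularForm_of (K : ℤ) (F : ℍ → ℂ) (hol : MDiff F)
    (inv : ∀ γ ∈ CongruenceSubgroup.Gamma0 N, ∀ z : ℍ, F (γ • z) = denom γ z ^ K * F z)
    (bdd : ∀ γ : SL(2, ℤ), IsBoundedAtImInfty (F ∣[K] γ)) :
    ∃ g : ModularForm (Gam N) K, (g : ℍ → ℂ) = F :=
  exists_modularForm_of_slash K F hol (fun γ hγ => slash_eq_of_law K F γ (inv γ hγ)) bdd

/-- Constructor for cusp forms. -/
theorem exists_cuspForm_of (K : ℤ) (F : ℍ → ℂ) (hol : MDiff F)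
    (inv : ∀ γ ∈ CongruenceSubgroup.Gamma0 N, ∀ z : ℍ, F (γ • z) = denom γ z ^ K * F z)
    (zero : ∀ γ : SL(2, ℤ), IsZeroAtImInfty (F ∣[K] γ)) :
    ∃ g : CuspForm (Gam N) K, (g : ℍ → ℂ) = F := by
  refine ⟨{ toFun := F
            slash_action_eq' := ?_
            holo' := hol
            zero_at_cusps' := ?_ }, rfl⟩
  · rintro g ⟨γ, hγ, rfl⟩
    exact slash_eq_of_law K F γ (inv γ hγ)
  · intro c hc
    have hc' : IsCusp c 𝒮ℒ := (Subgroup.IsArithmetic.isCusp_iff_isCusp_SL2Z (Gam N)).mp hc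
    exact (OnePoint.isZeroAt_iff_forall_SL2Z hc').mpr fun γ _ => zero γ

/-- Constructor for level-one forms. -/
theorem exists_levelOne_of (K : ℤ) (F : ℍ → ℂ) (hol : MDiff F)
    (inv : ∀ γ : SL(2, ℤ), ∀ z : ℍ, F (γ • z) = denom γ z ^ K * F z)
    (bdd : IsBoundedAtImInfty F) : ∃ g : ModularForm 𝒮ℒ K, (g : ℍ → ℂ) = F := by
  have hsl : ∀ γ : SL(2, ℤ), F ∣[K] γ = F := fun γ => slash_eq_of_law K F γ (inv γ)
  refine ⟨{ toFun := F
            slash_action_eq' := ?_
            holo' := hol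
            bdd_at_cusps' := ?_ }, rfl⟩
  · rintro g ⟨γ, rfl⟩
    exact hsl γ
  · intro c hc
    refine (OnePoint.isBoundedAt_iff_forall_SL2Z hc).mpr fun γ _ => ?_
    rw [hsl γ]
    exact bdd

/-- Product of a level-one form and a form of level `Γ₀(N)`. -/
theorem exists_mulL1 {e k : ℤ} (a : ModularForm 𝒮ℒ e) (f : ModularForm (Gam N) k) :
    ∃ g : ModularForm (Gam N) (e + k), ∀ z : ℍ, g z = a z * f z := by
  have ha : ∀ γ : SL(2, ℤ), (a : ℍ → ℂ) ∣[e] γ = a := fun γ =>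
    SlashInvariantForm.slash_action_eqn a _ ⟨γ, rfl⟩
  have hmul : ∀ γ : SL(2, ℤ), ((a : ℍ → ℂ) * (f : ℍ → ℂ)) ∣[e + k] γ =
      (a : ℍ → ℂ) * ((f : ℍ → ℂ) ∣[k] γ) := fun γ => by
    rw [ModularForm.mul_slash_SL2 e k γ a f, ha γ]
  obtain ⟨g, hg⟩ := exists_modularForm_of_slash (N := N) (e + k) ((a : ℍ → ℂ) * (f : ℍ → ℂ))
    ((ModularFormClass.holo a).mul (ModularFormClass.holo f))
    (fun γ hγ => by
      rw [hmul γ]
      have hf : (f : ℍ → ℂ) ∣[k] γ = f :=
        SlashInvariantForm.slash_action_eqn f _ ⟨γ, hγ, rfl⟩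
      rw [hf])
    (fun γ => by
      rw [hmul γ]
      exact (ModularFormClass.bdd_at_infty a).mul (ModularFormClass.bdd_at_infty_slash f γ))
  exact ⟨g, fun z => by rw [hg]; rfl⟩

/-- Conjugates of a product with a level-one form. -/
theorem cj_of_eq_mul {e k k' : ℤ} (a : ModularForm 𝒮ℒ e) (f : ModularForm (Gam N) k)
    (g : ModularForm (Gam N) k') (hk : k' = e + k) (h : ∀ z : ℍ, g z = a z * f z)
    (j : Fin (psi N)) (z : ℍ) : cj g j z = a z * cj f j z := by
  subst hk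
  have hg : (g : ℍ → ℂ) = (a : ℍ → ℂ) * (f : ℍ → ℂ) := funext h
  have key : cj g j = (a : ℍ → ℂ) * cj f j := by
    unfold cj
    induction (quoEquiv N j) using Quotient.inductionOn with
    | h r =>
      obtain ⟨r, γ, rfl⟩ := r
      simp only [SlashInvariantForm.quotientFunc_mk]
      have h1 : ((Matrix.SpecialLinearGroup.mapGL ℝ) γ)⁻¹ =
          Matrix.SpecialLinearGroup.mapGL ℝ γ⁻¹ := (map_inv _ _).symm
      simp only [h1]
      have h2 : ((a : ℍ → ℂ) * (f : ℍ → ℂ)) ∣[e + k] γ⁻¹ =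
          (a : ℍ → ℂ) ∣[e] γ⁻¹ * (f : ℍ → ℂ) ∣[k] γ⁻¹ := ModularForm.mul_slash_SL2 e k γ⁻¹ a f
      have h3 : (a : ℍ → ℂ) ∣[e] γ⁻¹ = a := SlashInvariantForm.slash_action_eqn a _ ⟨γ⁻¹, rfl⟩
      rw [hg]
      rw [h3] at h2
      exact h2
  rw [key]
  rfl

end Fermat.Agent.S20.BasicsAux
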