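import Fermat.Agent.S20.Defs

/-!
# S20 / Basics / Sturm: the index of `Γ₀(N)`, finite-dimensionality of `M_K(Γ₀(N))`.
-/

set_option autoImplicit false

open UpperHalfPlane ModularForm CongruenceSubgroup
open scoped MatrixGroups ModularForm Manifold
open Fermat.Agent.S23

namespace Fermat.Agent.S20.BasicsAux

variable {N : ℕ} [NeZero N]

/-- `psi N` is the relative index of (the image of) `Γ₀(N)` in (the image of) `SL(2,ℤ)`. -/
private theorem psi_eq_relIndex (M : ℕ) : psi M = (Gam M).relIndex 𝒮ℒ := rfl

/-- `psi M` is the index of `Γ₀(M)` in `SL(2,ℤ)` (no hypothesis on `M`). -/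
private theorem psi_eq_index_aux (M : ℕ) : psi M = (CongruenceSubgroup.Gamma0 M).index := by
  rw [psi_eq_relIndex, MonoidHom.range_eq_map,
    Subgroup.relIndex_map_map_of_injective _ _ Matrix.SpecialLinearGroup.mapGL_injective,
    Subgroup.relIndex_top_right]

set_option linter.unusedSectionVars false in
theorem psi_eq_index : psi N = (CongruenceSubgroup.Gamma0 N).index :=
  psi_eq_index_aux N

/-- The Sturm bound for `Γ₀(N)` in weight `K`, expressed with `psi N`. -/
private noncomputable def sturmB (N : ℕ) (K : ℤ) : ℕ := (K * (psi N : ℤ)).toNat / 12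

/-- The `q`-expansion is additive on modular forms of level `Γ₀(N)`. -/
private theorem qExpansion_add_modularForm {K : ℤ} (f g : ModularForm (Gam N) K) :
    qExpansion 1 (⇑(f + g)) = qExpansion 1 f + qExpansion 1 g := by
  rw [FunLike.coe_add]
  exact qExpansion_add (isNice_modularForm f).analyticAt (isNice_modularForm g).analyticAt

/-- The `q`-expansion is `ℂ`-homogeneous on modular forms of level `Γ₀(N)`. -/
private theorem qExpansion_smul_modularForm {K : ℤ} (c : ℂ) (f : ModularForm (Gam N) K) :
    qExpansion 1 (⇑(c • f)) = c • qExpansion 1 f := by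
  rw [FunLike.coe_smul]
  exact qExpansion_smul (isNice_modularForm f).analyticAt c

/-- The truncated `q`-expansion map: the first `B + 1` coefficients, `B` the Sturm bound. -/
private noncomputable def sturmTau (N : ℕ) [NeZero N] (K : ℤ) :
    ModularForm (Gam N) K →ₗ[ℂ] (Fin (sturmB N K + 1) → ℂ) where
  toFun f i := PowerSeries.coeff (i : ℕ) (qExpansion 1 f)
  map_add' f g := by
    funext i
    simp only [qExpansion_add_modularForm, map_add, Pi.add_apply]
  map_smul' c f := by
    funext i
    simp only [qExpansion_smul_modularForm, PowerSeries.coeff_smul, Pi.smul_apply, smul_eq_mul,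
      RingHom.id_apply]

/-- By the Sturm bound, the truncated `q`-expansion map is injective. -/
private theorem sturmTau_injective (N : ℕ) [NeZero N] (K : ℤ) :
    Function.Injective (sturmTau N K) := by
  rw [← LinearMap.ker_eq_bot, LinearMap.ker_eq_bot']
  intro f hf
  apply ModularForm.sturm_bound_Gamma0 N
  intro n hn
  rw [← psi_eq_index] at hn
  exact congrFun hf ⟨n, Nat.lt_succ_of_le hn⟩

theorem finiteDimensional_modularForm (K : ℤ) :
    FiniteDimensional ℂ (ModularForm (Gam N) K) :=
  FiniteDimensional.of_injective (sturmTau N K) (sturmTau_injective N K)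

theorem finrank_modularForm_le (K : ℤ) :
    Module.finrank ℂ (ModularForm (Gam N) K) ≤ (K * (psi N : ℤ)).toNat / 12 + 1 := by
  have h := LinearMap.finrank_le_finrank_of_injective (sturmTau_injective N K)
  rw [Module.finrank_fin_fun] at h
  exact h

end Fermat.Agent.S20.BasicsAux
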