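import Fermat.Agent.S20.Defs

/-!
# S20 / Basics / Weights: forms of negative, odd, zero weight; traces of products with cusp forms.
-/

set_option autoImplicit false

open UpperHalfPlane ModularForm CongruenceSubgroup
open scoped MatrixGroups ModularForm Manifold
open Fermat.Agent.S23

namespace Fermat.Agent.S20.BasicsAux

variable {N : ℕ} [NeZero N]

theorem modularForm_neg_weight {K : ℤ} (hK : K < 0) (F : ModularForm (Gam N) K) : F = 0 :=
  ModularForm.isZero_of_neg_weight hK F

/-- `-1` belongs to `Γ₀(N)` (as a subgroup of `GL(2,ℝ)`). -/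
private theorem neg_one_mem_Gam (N : ℕ) : (-1 : GL (Fin 2) ℝ) ∈ Gam N := by
  refine ⟨-1, ?_, ?_⟩
  · simp [CongruenceSubgroup.Gamma0_mem]
  · ext i j
    simp

theorem modularForm_odd_weight {K : ℤ} (hK : Odd K) (F : ModularForm (Gam N) K) : F = 0 := by
  have _hN : N ≠ 0 := NeZero.ne N
  exact ModularForm.eq_zero_of_neg_one_mem (neg_one_mem_Gam N) hK F

theorem modularForm_weight_zero (F : ModularForm (Gam N) 0) : ∃ c : ℂ, ∀ z : ℍ, F z = c := by
  obtain ⟨c, hc⟩ := ModularForm.eq_const_of_weight_zero F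
  exact ⟨c, fun z => by rw [hc, Function.const_apply]⟩

/-- The trace to level one of a cusp form is the sum of the conjugates. -/
private theorem cuspTrace_apply {k : ℤ} (g : CuspForm (Gam N) k) (z : ℍ) :
    CuspForm.trace 𝒮ℒ g z = ∑ i : Fin (psi N), cj g i z := by
  let := Fintype.ofFinite (Quo N)
  rw [CuspForm.coe_trace, Finset.sum_apply]
  unfold cj
  exact (Fintype.sum_equiv (quoEquiv N) _ _ (fun i => rfl)).symm

/-- Conjugates of the product of a cusp form and a modular form. -/
private theorem cj_mulModularForm {k₁ k₂ : ℤ} (s : CuspForm (Gam N) k₁)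
    (f : ModularForm (Gam N) k₂) (i : Fin (psi N)) :
    cj (s.mulModularForm f) i = cj s i * cj f i := by
  unfold cj
  induction (quoEquiv N i) using Quotient.inductionOn with
  | h r =>
    obtain ⟨r, γ, rfl⟩ := r
    simp only [SlashInvariantForm.quotientFunc_mk, CuspForm.coe_mulModularForm]
    have h1 : ((Matrix.SpecialLinearGroup.mapGL ℝ) γ)⁻¹ = Matrix.SpecialLinearGroup.mapGL ℝ γ⁻¹ :=
      (map_inv _ _).symm
    simp only [h1]
    exact ModularForm.mul_slash_SL2 k₁ k₂ γ⁻¹ s f

/-- The trace of a product (cusp form) × (modular form) is `Δ` times a level-one form. -/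
theorem exists_trace_mul {k₁ k₂ : ℤ} (s : CuspForm (Gam N) k₁) (f : ModularForm (Gam N) k₂) :
    ∃ b : ModularForm 𝒮ℒ (k₁ + k₂ - 12),
      ∀ z : ℍ, ∑ j, cj s j z * cj f j z = Δf z * b z := by
  refine ⟨CuspForm.discriminantEquiv (CuspForm.trace 𝒮ℒ (s.mulModularForm f)), fun z => ?_⟩
  change _ = ModularForm.discriminant z * _
  rw [ModularForm.discriminant_mul_discriminantEquiv_apply, cuspTrace_apply]
  refine Finset.sum_congr rfl fun j _ => ?_
  rw [cj_mulModularForm]
  rfl

end Fermat.Agent.S20.BasicsAux
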